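import Mathlib

/-!
# Powers of an ideal of finite codimension

In an algebra generated by finitely many elements every power of a left ideal of finite
codimension has finite codimension.
-/

set_option autoImplicit false

noncomputable section

namespace FA.Ado

open Module

variable {K U : Type*} [Field K] [Ring U] [Algebra K U]

/-- A subspace with a finitely generated supplement has finite codimension. -/
lemma finite_quotient_of_sup {W P : Submodule K U} (hW : W.FG) (h : W ⊔ P = ⊤) :
    FiniteDimensional K (U ⧸ P) := by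
  have : Module.Finite K W := Module.Finite.iff_fg.2 hW
  refine Module.Finite.of_surjective (P.mkQ ∘ₗ W.subtype) (LinearMap.range_eq_top.1 ?_)
  rw [LinearMap.range_comp, Submodule.range_subtype, eq_top_iff, ← P.range_mkQ,
    ← Submodule.map_top, ← h, Submodule.map_sup, Submodule.mkQ_map_self, sup_bot_eq]

/-- Powers of a left ideal of finite codimension have finite codimension. -/
theorem finite_quotient_pow {G : Submodule K U} (hG : G.FG)
    (hgen : Algebra.adjoin K (G : Set U) = ⊤) {P : Submodule K U} (hl : ⊤ * P ≤ P)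
    [FiniteDimensional K (U ⧸ P)] (k : ℕ) :
    FiniteDimensional K (U ⧸ P ^ (k + 1)) := by
  obtain ⟨C, hC⟩ := Submodule.exists_isCompl P
  have : Module.Finite K C := Module.Finite.equiv (Submodule.quotientEquivOfIsCompl P C hC)
  set W : Submodule K U := C ⊔ Submodule.span K {1}
  have hWfg : W.FG := (Module.Finite.iff_fg.1 ‹_›).sup (Submodule.fg_span_singleton 1)
  have hWP : W ⊔ P = ⊤ := eq_top_iff.2 (hC.sup_eq_top.ge.trans (sup_le le_sup_right
    (le_sup_left.trans le_sup_left)))
  set X : Submodule K U := W ⊔ G * W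
  have hXfg : X.FG := hWfg.sup (hG.mul hWfg)
  set F : Submodule K U := X ⊓ P
  have hFfg : F.FG := by
    have : Module.Finite K X := Module.Finite.iff_fg.2 hXfg
    exact Module.Finite.iff_fg.1 (Submodule.finiteDimensional_of_le (inf_le_left : F ≤ X))
  have h1 : ∀ A : Submodule K U, A ≤ ⊤ * A := fun A a ha => by
    simpa using Submodule.mul_mem_mul (Submodule.mem_top (x := (1 : U))) ha
  have hXS : X ≤ W ⊔ ⊤ * F := by
    intro x hx
    obtain ⟨w, hw, p, hp, rfl⟩ := Submodule.mem_sup.1 (hWP ▸ Submodule.mem_top : x ∈ W ⊔ P)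
    have hpF : p ∈ F := ⟨by simpa using X.sub_mem hx (Submodule.mem_sup_left hw), hp⟩
    exact Submodule.add_mem_sup hw (h1 F hpF)
  set S := W ⊔ ⊤ * F
  have hS : S = ⊤ := by
    let A : Subalgebra K U :=
      { carrier := {u | ∀ s ∈ S, u * s ∈ S}
        mul_mem' := fun {u v} hu hv s hs => by rw [mul_assoc]; exact hu _ (hv s hs)
        add_mem' := fun {u v} hu hv s hs => by rw [add_mul]; exact S.add_mem (hu s hs) (hv s hs)
        algebraMap_mem' := fun r s hs => by rw [← Algebra.smul_def]; exact S.smul_mem r hs }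
    have hA : Algebra.adjoin K (G : Set U) ≤ A := Algebra.adjoin_le fun g hg s hs => by
      obtain ⟨w, hw, t, ht, rfl⟩ := Submodule.mem_sup.1 hs
      rw [mul_add]
      refine S.add_mem (hXS (Submodule.mem_sup_right (Submodule.mul_mem_mul hg hw))) ?_
      refine Submodule.mem_sup_right ?_
      have h := Submodule.mul_mem_mul (Submodule.mem_top (x := g)) ht
      rw [← mul_assoc] at h
      exact mul_le_mul' le_top (le_refl F) h
    rw [hgen] at hA
    rw [eq_top_iff]
    intro u _
    simpa using hA (Algebra.mem_top (x := u)) 1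
      (Submodule.mem_sup_left (Submodule.mem_sup_right (Submodule.mem_span_singleton_self 1)))
  have hP : P ≤ ⊤ * F := by
    have hTF : ⊤ * F ≤ P := le_trans (mul_le_mul' le_rfl inf_le_right) hl
    intro p hp
    obtain ⟨w, hw, t, ht, rfl⟩ := Submodule.mem_sup.1 (hS ▸ Submodule.mem_top : p ∈ S)
    refine (⊤ * F).add_mem (h1 F ⟨Submodule.mem_sup_left hw, ?_⟩) ht
    simpa using P.sub_mem hp (hTF ht)
  suffices h : ∀ j, ∃ W' : Submodule K U, W'.FG ∧ W' ⊔ P ^ (j + 1) = ⊤ by
    obtain ⟨W', hW', h'⟩ := h k
    exact finite_quotient_of_sup hW' h'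
  intro j
  induction j with
  | zero => exact ⟨W, hWfg, by rw [pow_one, hWP]⟩
  | succ j ih =>
    obtain ⟨W', hW', h'⟩ := ih
    refine ⟨W ⊔ W' * F, hWfg.sup (hW'.mul hFfg), ?_⟩
    rw [eq_top_iff, ← hWP, sup_le_iff]
    refine ⟨le_sup_left.trans le_sup_left, hP.trans ?_⟩
    rw [← h', Submodule.sup_mul]
    refine sup_le (le_sup_right.trans le_sup_left) (le_trans ?_ le_sup_right)
    rw [pow_succ (n := j + 1)]
    exact mul_le_mul' le_rfl inf_le_right

end FA.Ado
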