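import Mathlib

/-!
# Derivations of the enveloping algebra

A derivation of a Lie algebra extends uniquely to a derivation of its enveloping algebra.
-/

set_option autoImplicit false

noncomputable section

namespace FA.Ado

open UniversalEnvelopingAlgebra

attribute [local instance 100] LieRing.ofAssociativeRing

variable {K n : Type*} [CommRing K] [LieRing n] [LieAlgebra K n]

local notation "U" => UniversalEnvelopingAlgebra K n
local notation "ιU" => UniversalEnvelopingAlgebra.ι K (L := n)

/-- The enveloping algebra is generated by the image of the Lie algebra. -/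
lemma env_induction {p : U → Prop} (halg : ∀ r, p (algebraMap K U r)) (hι : ∀ y, p (ιU y))
    (hadd : ∀ u v, p u → p v → p (u + v)) (hmul : ∀ u v, p u → p v → p (u * v)) (u : U) : p u := by
  let S : Subalgebra K U :=
    { carrier := {u | p u}
      mul_mem' := fun {u v} => hmul u v
      add_mem' := fun {u v} => hadd u v
      algebraMap_mem' := halg }
  let g : n →ₗ⁅K⁆ S :=
    { (ιU).toLinearMap.codRestrict S.toSubmodule hι with
      map_lie' := fun {x y} => Subtype.ext (by
        show ιU ⁅x, y⁆ = _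
        rw [LieHom.map_lie]
        rfl) }
  have h : S.val.comp (UniversalEnvelopingAlgebra.lift K g) = AlgHom.id K U :=
    UniversalEnvelopingAlgebra.hom_ext K (LieHom.ext fun x => by
      show S.val (UniversalEnvelopingAlgebra.lift K g (ιU x)) = _
      rw [lift_ι_apply]
      rfl)
  have e : (UniversalEnvelopingAlgebra.lift K g u : U) = u := AlgHom.congr_fun h u
  rw [← e]
  exact (UniversalEnvelopingAlgebra.lift K g u).2

lemma adjoin_range_ι : Algebra.adjoin K (LinearMap.range (ιU).toLinearMap : Set U) = ⊤ :=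
  eq_top_iff.2 fun u _ => env_induction (fun r => Subalgebra.algebraMap_mem _ r)
    (fun y => Algebra.subset_adjoin (SetLike.mem_coe.2 (LinearMap.mem_range_self (ιU).toLinearMap y))) (fun _ _ => Subalgebra.add_mem _)
    (fun _ _ => Subalgebra.mul_mem _) u

/-- A linear map satisfying the Leibniz rule. -/
def IsLeibniz (δ : U →ₗ[K] U) : Prop := ∀ u v, δ (u * v) = δ u * v + u * δ v

lemma IsLeibniz.algebraMap_eq_zero {δ : U →ₗ[K] U} (hδ : IsLeibniz δ) (r : K) :
    δ (algebraMap K U r) = 0 := by
  have h1 : δ 1 = 0 := by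
    have := hδ 1 1
    rw [one_mul, mul_one, one_mul] at this
    simpa using this
  rw [Algebra.algebraMap_eq_smul_one, map_smul, h1, smul_zero]

lemma IsLeibniz.ext {δ δ' : U →ₗ[K] U} (hδ : IsLeibniz δ) (hδ' : IsLeibniz δ')
    (h : ∀ y, δ (ιU y) = δ' (ιU y)) : δ = δ' :=
  LinearMap.ext (env_induction (fun r => by rw [hδ.algebraMap_eq_zero, hδ'.algebraMap_eq_zero]) h
    (fun u v hu hv => by rw [map_add, map_add, hu, hv])
    (fun u v hu hv => by rw [hδ, hδ', hu, hv]))

lemma IsLeibniz.commutator {δ δ' : U →ₗ[K] U} (hδ : IsLeibniz δ) (hδ' : IsLeibniz δ') :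
    IsLeibniz (δ ∘ₗ δ' - δ' ∘ₗ δ) := fun u v => by
  simp only [LinearMap.sub_apply, LinearMap.comp_apply, hδ' u v, hδ u v, map_add, hδ (δ' u) v,
    hδ u (δ' v), hδ' (δ u) v, hδ' u (δ v), sub_mul, mul_sub]
  abel

lemma IsLeibniz.add {δ δ' : U →ₗ[K] U} (hδ : IsLeibniz δ) (hδ' : IsLeibniz δ') :
    IsLeibniz (δ + δ') := fun u v => by
  simp only [LinearMap.add_apply, hδ u v, hδ' u v, add_mul, mul_add]
  abel

lemma IsLeibniz.smul {δ : U →ₗ[K] U} (hδ : IsLeibniz δ) (r : K) : IsLeibniz (r • δ) := fun u v => by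
  simp [hδ u v, smul_add]

/-- Every derivation of the Lie algebra extends to the enveloping algebra. -/
lemma exists_leibniz (D : n →ₗ[K] n) (hD : ∀ x y, D ⁅x, y⁆ = ⁅D x, y⁆ + ⁅x, D y⁆) :
    ∃ δ : U →ₗ[K] U, IsLeibniz δ ∧ ∀ y, δ (ιU y) = ιU (D y) := by
  let f : n →ₗ⁅K⁆ TrivSqZeroExt U U :=
    { toFun := fun y => TrivSqZeroExt.inl (ιU y) + TrivSqZeroExt.inr (ιU (D y))
      map_add' := fun x y => by
        simp only [map_add, TrivSqZeroExt.inl_add, TrivSqZeroExt.inr_add]; abel
      map_smul' := fun r x => by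
        refine TrivSqZeroExt.ext ?_ ?_ <;> simp
      map_lie' := fun {x y} => by
        refine TrivSqZeroExt.ext ?_ ?_
        · simp [-ι_apply, LieRing.of_associative_ring_bracket, LieHom.map_lie]
        · simp [-ι_apply, LieRing.of_associative_ring_bracket, LieHom.map_lie, hD]
          abel }
  let F := UniversalEnvelopingAlgebra.lift K f
  have hfst : ∀ u, (F u).fst = u := fun u =>
    env_induction (p := fun u => (F u).fst = u)
      (fun r => by rw [AlgHom.commutes, TrivSqZeroExt.algebraMap_eq_inl', TrivSqZeroExt.fst_inl])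
      (fun y => by
        rw [show F (ιU y) = f y from lift_ι_apply K f y]
        simp [f])
      (fun u v hu hv => by rw [map_add, TrivSqZeroExt.fst_add, hu, hv])
      (fun u v hu hv => by rw [map_mul, TrivSqZeroExt.fst_mul, hu, hv]) u
  refine ⟨{ toFun := fun u => (F u).snd
            map_add' := fun u v => by rw [map_add, TrivSqZeroExt.snd_add]
            map_smul' := fun r u => by rw [map_smul, TrivSqZeroExt.snd_smul]; rfl },
    fun u v => ?_, fun y => ?_⟩
  · show (F (u * v)).snd = (F u).snd * v + u * (F v).snd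
    rw [map_mul, TrivSqZeroExt.snd_mul, hfst, hfst, add_comm, smul_eq_mul, op_smul_eq_mul]
  · show (F (ιU y)).snd = _
    rw [show F (ιU y) = f y from lift_ι_apply K f y]
    simp [f]

end FA.Ado
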