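import Fermat.Agent.Ado.Codim
import Fermat.Agent.Ado.Derivation

/-!
# Zassenhaus extension of representations

A representation of a subalgebra `n`, nilpotent on an ideal `N` containing `⁅h, n⁆`, extends to the
semidirect sum `n + h` without enlarging the kernel on `n`.
-/

set_option autoImplicit false

noncomputable section

namespace FA.Ado

open Module UniversalEnvelopingAlgebra

attribute [local instance 100] LieRing.ofAssociativeRing

variable {K g : Type*} [Field K] [LieRing g] [LieAlgebra K g] [FiniteDimensional K g]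

section Leibniz

variable {n : Type*} [LieRing n] [LieAlgebra K n]

local notation "U" => UniversalEnvelopingAlgebra K n

omit [FiniteDimensional K g] in
lemma IsLeibniz.pow_mul_eq_zero {δ : U →ₗ[K] U} (hδ : IsLeibniz δ) (s : ℕ) :
    ∀ (p q : ℕ) (u v : U), p + q = s → (δ ^ p) u = 0 → (δ ^ q) v = 0 → (δ ^ s) (u * v) = 0 := by
  induction s with
  | zero =>
    intro p q u v hpq hu _
    obtain rfl : p = 0 := by omega
    simp only [pow_zero, Module.End.one_apply] at hu ⊢
    rw [hu, zero_mul]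
  | succ s ih =>
    intro p q u v hpq hu hv
    rcases p with _ | p
    · simp only [pow_zero, Module.End.one_apply] at hu
      rw [hu, zero_mul, map_zero]
    rcases q with _ | q
    · simp only [pow_zero, Module.End.one_apply] at hv
      rw [hv, mul_zero, map_zero]
    rw [pow_succ, Module.End.mul_apply, hδ, map_add,
      ih p (q + 1) (δ u) v (by omega) (by rwa [pow_succ, Module.End.mul_apply] at hu) hv,
      ih (p + 1) q u (δ v) (by omega) hu (by rwa [pow_succ, Module.End.mul_apply] at hv), add_zero]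

omit [FiniteDimensional K g] in
lemma IsLeibniz.locally_nilpotent {δ : U →ₗ[K] U} (hδ : IsLeibniz δ)
    (hgen : ∀ y : n, ∃ m, (δ ^ m) (UniversalEnvelopingAlgebra.ι K y) = 0) (u : U) :
    ∃ m, (δ ^ m) u = 0 := by
  refine env_induction (p := fun u => ∃ m, (δ ^ m) u = 0) (fun r => ⟨1, ?_⟩) hgen ?_ ?_ u
  · rw [pow_one, hδ.algebraMap_eq_zero]
  · rintro u v ⟨p, hp⟩ ⟨q, hq⟩
    refine ⟨p + q, ?_⟩
    rw [map_add, Module.End.pow_map_zero_of_le (by omega : p ≤ p + q) hp,
      Module.End.pow_map_zero_of_le (by omega : q ≤ p + q) hq, add_zero]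
  · rintro u v ⟨p, hp⟩ ⟨q, hq⟩
    exact ⟨p + q, hδ.pow_mul_eq_zero _ p q u v rfl hp hq⟩

end Leibniz

variable {V : Type*} [AddCommGroup V] [Module K V] [FiniteDimensional K V]

/-- The extension lemma of Zassenhaus. -/
theorem exists_extension (n : LieSubalgebra K g) (h N : Submodule K g)
    (hdisj : Disjoint n.toSubmodule h) (hh : ∀ a ∈ h, ∀ b ∈ h, ⁅a, b⁆ ∈ h)
    (hN : N ≤ n.toSubmodule) (hhn : ∀ a ∈ h, ∀ y ∈ n, ⁅a, y⁆ ∈ N)
    (hnN : ∀ x ∈ n, ∀ y ∈ N, ⁅x, y⁆ ∈ N) (φ : g →ₗ[K] Module.End K V)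
    (hφ : ∀ x ∈ n, ∀ y ∈ n, φ ⁅x, y⁆ = ⁅φ x, φ y⁆) (hnil : ∀ y ∈ N, IsNilpotent (φ y)) :
    ∃ (d : ℕ) (ψ : g →ₗ[K] Module.End K (Fin d → K)),
      (∀ x ∈ n.toSubmodule ⊔ h, ∀ y ∈ n.toSubmodule ⊔ h, ψ ⁅x, y⁆ = ⁅ψ x, ψ y⁆) ∧
      (∀ y ∈ n, ψ y = 0 → φ y = 0) ∧
      ∀ y ∈ N, ∀ a ∈ h, (∀ z ∈ n, ∃ m, (LieAlgebra.ad K g a ^ m) z = 0) →
        IsNilpotent (ψ (y + a)) := by
  classical
  let φn : n →ₗ⁅K⁆ Module.End K V :=
    { φ ∘ₗ n.toSubmodule.subtype with map_lie' := fun {x y} => hφ x.1 x.2 y.1 y.2 }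
  let _ : LieRingModule n V := LieRingModule.compLieHom V φn
  have : LieModule K n V := LieModule.compLieHom V φn
  let N' : LieIdeal K n :=
    { toSubmodule := N.comap n.toSubmodule.subtype
      lie_mem := fun {x y} hy => hnN x.1 x.2 y.1 hy }
  obtain ⟨k, hk₀⟩ : ∃ k, N'.lcs V k = ⊥ := by
    have hn : LieModule.IsNilpotent N' V :=
      (LieModule.isNilpotent_iff_forall' (R := K)).2 fun y => hnil _ y.2
    obtain ⟨k, hk⟩ := (LieModule.isNilpotent_iff K N' V).1 hn
    exact ⟨k, by rw [← LieSubmodule.toSubmodule_eq_bot, LieIdeal.coe_lcs_eq, hk,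
      LieSubmodule.bot_toSubmodule]⟩
  have hk : N'.lcs V (k + 1) = ⊥ := by rw [LieIdeal.lcs_succ, hk₀, LieSubmodule.lie_bot]
  let Φ : UniversalEnvelopingAlgebra K n →ₐ[K] Module.End K V :=
    UniversalEnvelopingAlgebra.lift K φn
  have hΦ : ∀ (y : n) (v : V), Φ (UniversalEnvelopingAlgebra.ι K y) v = ⁅y, v⁆ := fun y v =>
    LinearMap.congr_fun (lift_ι_apply K φn y) v
  have hstab : ∀ (u : UniversalEnvelopingAlgebra K n) i, ∀ v ∈ N'.lcs V i, Φ u v ∈ N'.lcs V i := by
    intro u
    refine env_induction (p := fun u => ∀ i, ∀ v ∈ N'.lcs V i, Φ u v ∈ N'.lcs V i) ?_ ?_ ?_ ?_ u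
    · intro r i v hv
      rw [AlgHom.commutes, Module.algebraMap_end_apply]
      exact (N'.lcs V i).smul_mem r hv
    · intro y i v hv
      rw [hΦ]
      exact (N'.lcs V i).lie_mem hv
    · intro u u' hu hu' i v hv
      rw [map_add, LinearMap.add_apply]
      exact add_mem (hu i v hv) (hu' i v hv)
    · intro u u' hu hu' i v hv
      rw [map_mul, Module.End.mul_apply]
      exact hu i _ (hu' i v hv)
  let P : Submodule K (UniversalEnvelopingAlgebra K n) :=
    { carrier := {u | ∀ i, ∀ v ∈ N'.lcs V i, Φ u v ∈ N'.lcs V (i + 1)}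
      add_mem' := fun {u u'} hu hu' i v hv => by
        rw [map_add, LinearMap.add_apply]; exact add_mem (hu i v hv) (hu' i v hv)
      zero_mem' := fun i v _ => by rw [map_zero, LinearMap.zero_apply]; exact zero_mem _
      smul_mem' := fun r u hu i v hv => by
        rw [map_smul, LinearMap.smul_apply]; exact SMulMemClass.smul_mem r (hu i v hv) }
  have hPl : ⊤ * P ≤ P := Submodule.mul_le.2 fun u _ p hp i v hv => by
    rw [map_mul, Module.End.mul_apply]; exact hstab u _ _ (hp i v hv)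
  have hPr : P * ⊤ ≤ P := Submodule.mul_le.2 fun p hp u _ i v hv => by
    rw [map_mul, Module.End.mul_apply]; exact hp i _ (hstab u i v hv)
  have hPN : ∀ y : n, (y : g) ∈ N → UniversalEnvelopingAlgebra.ι K y ∈ P := fun y hy i v hv => by
    rw [hΦ, LieIdeal.lcs_succ]
    exact LieSubmodule.lie_mem_lie hy hv
  have hkill : ∀ j, ∀ u ∈ P ^ (j + 1), ∀ i, ∀ v ∈ N'.lcs V i, Φ u v ∈ N'.lcs V (i + j + 1) := by
    intro j
    induction j with
    | zero => intro u hu; rw [pow_one] at hu; exact hu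
    | succ j ih =>
      intro u hu
      rw [pow_succ'] at hu
      induction hu using Submodule.mul_induction_on' with
      | mem_mul_mem p hp q hq =>
        intro i v hv
        rw [map_mul, Module.End.mul_apply]
        exact hp _ _ (ih q hq i v hv)
      | add x _ y _ hx hy =>
        intro i v hv
        rw [map_add, LinearMap.add_apply]
        exact add_mem (hx i v hv) (hy i v hv)
  set J := P ^ (k + 1) with hJ_def
  have hJ : ∀ u ∈ J, Φ u = 0 := fun u hu => LinearMap.ext fun v => by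
    have := hkill k u hu 0 v trivial
    rwa [zero_add, hk, LieSubmodule.mem_bot] at this
  have : FiniteDimensional K (UniversalEnvelopingAlgebra K n ⧸ P) := by
    have hle : LinearMap.ker Φ.toLinearMap ≤ P := fun u hu i v _ => by
      rw [show Φ u = 0 from hu, LinearMap.zero_apply]; exact zero_mem _
    have : FiniteDimensional K
        (UniversalEnvelopingAlgebra K n ⧸ LinearMap.ker Φ.toLinearMap) :=
      Module.Finite.equiv Φ.toLinearMap.quotKerEquivRange.symm
    exact Module.Finite.of_surjective (Submodule.factor hle) (Submodule.factor_surjective hle)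
  have hJfin : FiniteDimensional K (UniversalEnvelopingAlgebra K n ⧸ J) :=
    finite_quotient_pow (Module.Finite.iff_fg.1 inferInstance) adjoin_range_ι hPl k
  -- the derivations
  have hDer : ∀ a : h, ∃ δ : UniversalEnvelopingAlgebra K n →ₗ[K] UniversalEnvelopingAlgebra K n,
      IsLeibniz δ ∧ ∀ y : n, δ (UniversalEnvelopingAlgebra.ι K y) =
        UniversalEnvelopingAlgebra.ι K ⟨⁅(a : g), (y : g)⁆, hN (hhn a a.2 y y.2)⟩ := by
    intro a
    let D : n →ₗ[K] n := LinearMap.codRestrict n.toSubmodule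
      (LieAlgebra.ad K g a ∘ₗ n.toSubmodule.subtype) fun y => hN (hhn a a.2 y y.2)
    exact exists_leibniz D fun x y => Subtype.ext (by
      show ⁅(a : g), ⁅(x : g), (y : g)⁆⁆ = ⁅⁅(a : g), (x : g)⁆, (y : g)⁆ + ⁅(x : g), ⁅(a : g), (y : g)⁆⁆
      exact leibniz_lie _ _ _)
  choose δ hδL hδι using hDer
  have δadd : ∀ a b : h, δ (a + b) = δ a + δ b := fun a b =>
    (hδL _).ext ((hδL a).add (hδL b)) fun y => by
      simp only [LinearMap.add_apply, hδι, ← map_add]
      congr 1
      exact Subtype.ext (add_lie _ _ _)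
  have δsmul : ∀ (r : K) (a : h), δ (r • a) = r • δ a := fun r a =>
    (hδL _).ext ((hδL a).smul r) fun y => by
      simp only [LinearMap.smul_apply, hδι, ← map_smul]
      congr 1
      exact Subtype.ext (smul_lie _ _ _)
  let T : (n.toSubmodule × h) →ₗ[K] Module.End K (UniversalEnvelopingAlgebra K n) :=
    LinearMap.coprod
      (LinearMap.mul K (UniversalEnvelopingAlgebra K n) ∘ₗ
        (UniversalEnvelopingAlgebra.ι K (L := n)).toLinearMap)
      { toFun := δ, map_add' := δadd, map_smul' := δsmul }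
  have hT : ∀ (y : n) (a : h) u, T (y, a) u = UniversalEnvelopingAlgebra.ι K y * u + δ a u :=
    fun y a u => rfl
  have hδP : ∀ a u, δ a u ∈ P := fun a u => by
    refine env_induction (p := fun u => δ a u ∈ P) ?_ ?_ ?_ ?_ u
    · intro r; rw [(hδL a).algebraMap_eq_zero]; exact zero_mem _
    · intro y; rw [hδι]; exact hPN _ (hhn a a.2 y y.2)
    · intro u v hu hv; rw [map_add]; exact add_mem hu hv
    · intro u v hu hv
      rw [hδL a]
      exact add_mem (hPr (Submodule.mul_mem_mul hu trivial))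
        (hPl (Submodule.mul_mem_mul trivial hv))
  have hδPow : ∀ a j, ∀ u ∈ P ^ (j + 1), δ a u ∈ P ^ (j + 1) := by
    intro a j
    induction j with
    | zero => intro u _; rw [pow_one]; exact hδP a u
    | succ j ih =>
      intro u hu
      rw [pow_succ'] at hu ⊢
      induction hu using Submodule.mul_induction_on' with
      | mem_mul_mem p hp q hq =>
        rw [hδL a]
        exact add_mem (Submodule.mul_mem_mul (hδP a p) hq) (Submodule.mul_mem_mul hp (ih q hq))
      | add x _ y _ hx hy => rw [map_add]; exact add_mem hx hy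
  have hlPow : ∀ j, ⊤ * P ^ (j + 1) ≤ P ^ (j + 1) := fun j => by
    rw [pow_succ', ← mul_assoc]
    exact mul_le_mul' hPl le_rfl
  have hTJ : ∀ x, J ≤ J.comap (T x) := fun x u hu => by
    obtain ⟨y, a⟩ := x
    rw [Submodule.mem_comap, hT]
    exact add_mem (hlPow k (Submodule.mul_mem_mul trivial hu)) (hδPow a k u hu)
  -- the projection to `n × h`
  have hinj : LinearMap.ker (LinearMap.coprod n.toSubmodule.subtype h.subtype) = ⊥ := by
    rw [LinearMap.ker_coprod_of_disjoint_range _ _ (by simpa using hdisj)]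
    simp
  obtain ⟨r, hr⟩ := LinearMap.exists_leftInverse_of_injective _ hinj
  replace hr : ∀ (y : n.toSubmodule) (a : h), r ((y : g) + a) = (y, a) := fun y a => by
    simpa using LinearMap.congr_fun hr (y, a)
  let ψ₀ : g →ₗ[K] Module.End K (UniversalEnvelopingAlgebra K n ⧸ J) :=
    { toFun := fun x => J.mapQ J (T (r x)) (hTJ _)
      map_add' := fun x y => Submodule.linearMap_qext _ (LinearMap.ext fun u => by simp)
      map_smul' := fun t x => Submodule.linearMap_qext _ (LinearMap.ext fun u => by simp) }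
  have hψ : ∀ (y : n.toSubmodule) (a : h) u, ψ₀ ((y : g) + a) (Submodule.Quotient.mk u) =
      Submodule.Quotient.mk (UniversalEnvelopingAlgebra.ι K (L := n) y * u + δ a u) := by
    intro y a u
    show Submodule.Quotient.mk (T (r ((y : g) + a)) u) = _
    rw [hr]
    rfl
  let e := (finBasis K (UniversalEnvelopingAlgebra K n ⧸ J)).equivFun
  let c := e.conjAlgEquiv K
  refine ⟨_, c.toLinearMap ∘ₗ ψ₀, fun x hx y hy => ?_, fun y hy h0 => ?_,
    fun y hy a ha had => ?_⟩
  · obtain ⟨x₁, hx₁, x₂, hx₂, rfl⟩ := Submodule.mem_sup.1 hx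
    obtain ⟨y₁, hy₁, y₂, hy₂, rfl⟩ := Submodule.mem_sup.1 hy
    show c (ψ₀ _) = ⁅c (ψ₀ _), c (ψ₀ _)⁆
    rw [LieRing.of_associative_ring_bracket, ← map_mul c, ← map_mul c, ← map_sub c]
    congr 1
    refine Submodule.linearMap_qext _ (LinearMap.ext fun u => ?_)
    let X₁ : n := ⟨x₁, hx₁⟩
    let Y₁ : n := ⟨y₁, hy₁⟩
    let X₂ : h := ⟨x₂, hx₂⟩
    let Y₂ : h := ⟨y₂, hy₂⟩
    let C₁ : n := ⁅X₁, Y₁⁆ + ⟨⁅x₂, y₁⁆, hN (hhn _ hx₂ _ hy₁)⟩ - ⟨⁅y₂, x₁⁆, hN (hhn _ hy₂ _ hx₁)⟩
    let C₂ : h := ⟨⁅x₂, y₂⁆, hh _ hx₂ _ hy₂⟩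
    have hC : ⁅x₁ + x₂, y₁ + y₂⁆ = (C₁ : g) + C₂ := by
      show _ = ⁅x₁, y₁⁆ + ⁅x₂, y₁⁆ - ⁅y₂, x₁⁆ + ⁅x₂, y₂⁆
      rw [add_lie, lie_add, lie_add, ← lie_skew x₁ y₂]
      abel
    simp only [LinearMap.comp_apply, Submodule.mkQ_apply, LinearMap.sub_apply, Module.End.mul_apply]
    rw [hC, hψ C₁ C₂, hψ Y₁ Y₂, hψ X₁ X₂, hψ X₁ X₂, hψ Y₁ Y₂, ← Submodule.Quotient.mk_sub]
    congr 1
    have hcomm : δ C₂ = δ X₂ ∘ₗ δ Y₂ - δ Y₂ ∘ₗ δ X₂ :=
      (hδL _).ext ((hδL X₂).commutator (hδL Y₂)) fun z => by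
        simp only [LinearMap.sub_apply, LinearMap.comp_apply, hδι, ← map_sub]
        congr 1
        exact Subtype.ext (lie_lie x₂ y₂ (z : g))
    rw [hcomm]
    simp only [C₁, LinearMap.sub_apply, LinearMap.comp_apply, map_add, map_sub, hδL X₂ _ u,
      hδL Y₂ _ u, hδι, LieHom.map_lie, LieRing.of_associative_ring_bracket, mul_add, add_mul,
      sub_mul, mul_assoc]
    abel
  · have h1 : ψ₀ y = 0 := c.injective (by simpa using h0)
    have h2 := LinearMap.congr_fun h1 (Submodule.Quotient.mk 1)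
    have e' := hψ ⟨y, hy⟩ 0 1
    rw [Submodule.coe_zero, add_zero] at e'
    rw [e', LinearMap.zero_apply, Submodule.Quotient.mk_eq_zero, mul_one,
      show δ 0 = 0 by simpa using δsmul 0 0, LinearMap.zero_apply, add_zero] at h2
    have h3 := hJ _ h2
    rw [show Φ (UniversalEnvelopingAlgebra.ι K _) = _ from lift_ι_apply K φn _] at h3
    exact h3
  · show IsNilpotent (c (ψ₀ (y + a)))
    refine IsNilpotent.map ?_ c
    let y' : n := ⟨y, hN hy⟩
    let a' : h := ⟨a, ha⟩
    set Tn := T (y', a') with hTn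
    have hloc : ∀ u, ∃ m, (δ a' ^ m) u = 0 := (hδL a').locally_nilpotent fun z => by
      obtain ⟨m, hm⟩ := had z.1 z.2
      refine ⟨m, ?_⟩
      have hiter : ∀ j, ∃ (hmem : (LieAlgebra.ad K g a ^ j) (z : g) ∈ n),
          (δ a' ^ j) (UniversalEnvelopingAlgebra.ι K z) =
            UniversalEnvelopingAlgebra.ι K ⟨_, hmem⟩ := fun j => by
        induction j with
        | zero => exact ⟨z.2, rfl⟩
        | succ j ih =>
          obtain ⟨hmem, e⟩ := ih
          refine ⟨?_, ?_⟩
          · rw [pow_succ', Module.End.mul_apply]; exact hN (hhn a ha _ hmem)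
          · rw [pow_succ', Module.End.mul_apply, e, hδι]
            congr 1
            exact Subtype.ext (by
              show ⁅a, (LieAlgebra.ad K g a ^ j) (z : g)⁆ = (LieAlgebra.ad K g a ^ (j + 1)) (z : g)
              rw [pow_succ']; rfl)
      obtain ⟨hmem, e⟩ := hiter m
      rw [e]
      simp only [hm]
      exact map_zero _
    obtain ⟨M, hM⟩ : ∃ M, ∀ u, (δ a' ^ M) u ∈ J := by
      let δq := J.mapQ J (δ a') fun u hu => hδPow a' k u hu
      have hq : ∀ j u, (δq ^ j) (Submodule.Quotient.mk u) = Submodule.Quotient.mk ((δ a' ^ j) u) :=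
        fun j => by
          induction j with
          | zero => simp
          | succ j ih => intro u; simp [pow_succ', Module.End.mul_apply, ih, δq]
      obtain ⟨M, hM⟩ : IsNilpotent δq := by
        rw [Module.End.isNilpotent_iff_of_finite]
        intro w
        obtain ⟨u, rfl⟩ := Submodule.Quotient.mk_surjective _ w
        obtain ⟨m, hm⟩ := hloc u
        exact ⟨m, by rw [hq, hm, Submodule.Quotient.mk_zero]⟩
      exact ⟨M, fun u => (Submodule.Quotient.mk_eq_zero J).1 (by rw [← hq, hM, LinearMap.zero_apply])⟩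
    let F : ℕ → Submodule K (UniversalEnvelopingAlgebra K n) := fun i =>
      Nat.casesOn i ⊤ fun j => P ^ (j + 1)
    have hPF : ∀ i, ∀ u ∈ F i, UniversalEnvelopingAlgebra.ι K y' * u ∈ F (i + 1) := by
      intro i u hu
      rcases i with _ | i
      · show _ ∈ P ^ 1
        rw [pow_one]
        exact hPr (Submodule.mul_mem_mul (hPN y' hy) trivial)
      · show _ ∈ P ^ (i + 1 + 1)
        rw [pow_succ']
        exact Submodule.mul_mem_mul (hPN y' hy) hu
    have hFδ : ∀ i, ∀ u ∈ F i, δ a' u ∈ F i := by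
      intro i u hu
      rcases i with _ | i
      · trivial
      · exact hδPow a' i u hu
    have hPP : ∀ i, P ^ (i + 1 + 1) ≤ P ^ (i + 1) := fun i => by
      rw [pow_succ']
      exact (mul_le_mul' le_top le_rfl).trans (hlPow i)
    have hFanti : ∀ i, F (i + 1) ≤ F i := fun i => by
      rcases i with _ | i
      · exact le_top
      · exact hPP i
    have hdiff : ∀ m i, ∀ u ∈ F i, (Tn ^ m) u ∈ F i ∧ (Tn ^ m) u - (δ a' ^ m) u ∈ F (i + 1) := by
      intro m
      induction m with
      | zero => intro i u hu; simp [hu]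
      | succ m ih =>
        intro i u hu
        obtain ⟨h1, h2⟩ := ih i u hu
        rw [pow_succ', Module.End.mul_apply, pow_succ', Module.End.mul_apply]
        conv => enter [1, 2]; rw [hTn, hT]
        conv => enter [2, 2, 1]; rw [hTn, hT]
        refine ⟨add_mem (hFanti i (hPF i _ h1)) (hFδ i _ h1), ?_⟩
        rw [add_sub_assoc, ← map_sub]
        exact add_mem (hPF i _ h1) (hFδ (i + 1) _ h2)
    have hstep : ∀ i ≤ k, ∀ u ∈ F i, (Tn ^ M) u ∈ F (i + 1) := fun i hi u hu => by
      have hJF : J ≤ F (i + 1) := by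
        show P ^ (k + 1) ≤ P ^ (i + 1)
        exact antitone_nat_of_succ_le (f := fun j => P ^ (j + 1)) hPP hi
      have := add_mem (hdiff M i u hu).2 (hJF (hM u))
      rwa [sub_add_cancel] at this
    have hiter : ∀ i ≤ k + 1, ∀ u, (Tn ^ (M * i)) u ∈ F i := by
      intro i
      induction i with
      | zero => intro _ u; trivial
      | succ i ih =>
        intro hi u
        rw [mul_add, mul_one, add_comm (M * i) M, pow_add, Module.End.mul_apply]
        exact hstep i (by omega) _ (ih (by omega) u)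
    refine ⟨M * (k + 1), Submodule.linearMap_qext _ (LinearMap.ext fun u => ?_)⟩
    have hq : ∀ j v, (ψ₀ (y + a) ^ j) (Submodule.Quotient.mk v) =
        Submodule.Quotient.mk ((Tn ^ j) v) := fun j => by
      induction j with
      | zero => simp
      | succ j ih =>
        intro v
        rw [pow_succ', Module.End.mul_apply, ih, pow_succ', Module.End.mul_apply]
        exact hψ y' a' _
    simp only [LinearMap.comp_apply, Submodule.mkQ_apply, hq, LinearMap.zero_apply]
    exact (Submodule.Quotient.mk_eq_zero J).2 (hiter (k + 1) le_rfl u)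

end FA.Ado
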