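import Fermat.Agent.Ado.Radical
import Fermat.Agent.Ado.Extension
import Fermat.Agent.WeylReducibility.Levi

/-!
# Ado's theorem

A faithful representation of the centre is extended to `M = ⁅L, radical L⁆ + center L`, to the
radical and, along a Levi factor, to the whole algebra, keeping `M` nilpotent; the adjoint
representation is then added.
-/

set_option autoImplicit false

noncomputable section

namespace FA.Ado

open Module LieAlgebra

attribute [local instance 100] LieRing.ofAssociativeRing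

variable {K g : Type*} [Field K] [LieRing g] [LieAlgebra K g] [FiniteDimensional K g]

/-- The ideal on which representations are required to be nilpotent. -/
def nilIdeal (K g : Type*) [Field K] [LieRing g] [LieAlgebra K g] : LieIdeal K g :=
  ⁅(⊤ : LieIdeal K g), radical K g⁆ ⊔ center K g

/-- A subspace has a representation faithful on the centre and nilpotent on the ideal. -/
def HasGoodRep (S : Submodule K g) : Prop :=
  ∃ (d : ℕ) (φ : g →ₗ[K] Module.End K (Fin d → K)),
    (∀ x ∈ S, ∀ y ∈ S, φ ⁅x, y⁆ = ⁅φ x, φ y⁆) ∧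
    (∀ z ∈ center K g, φ z = 0 → z = 0) ∧
    ∀ y ∈ S, y ∈ nilIdeal K g → IsNilpotent (φ y)

omit [FiniteDimensional K g] in
lemma bracket_mem_nilIdeal (x : g) {y : g} (hy : y ∈ radical K g) : ⁅x, y⁆ ∈ nilIdeal K g :=
  (LieSubmodule.mem_sup _ _ _).2 ⟨⁅x, y⁆, LieSubmodule.lie_mem_lie trivial hy, 0, zero_mem _, add_zero _⟩

omit [FiniteDimensional K g] in
lemma center_le_nilIdeal : center K g ≤ nilIdeal K g := le_sup_right

omit [FiniteDimensional K g] in
lemma nilIdeal_le_radical : nilIdeal K g ≤ radical K g :=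
  sup_le (LieSubmodule.lie_le_right _ _) (center_le_radical K g)

lemma isNilpotent_ad [CharZero K] {y : g} (hy : y ∈ nilIdeal K g) :
    IsNilpotent (LieAlgebra.ad K g y) := by
  obtain ⟨a, ha, z, hz, rfl⟩ := (LieSubmodule.mem_sup _ _ _).1 hy
  have h0 : LieAlgebra.ad K g z = 0 := LinearMap.ext fun w => by
    show ⁅z, w⁆ = 0
    rw [← lie_skew, hz w, neg_zero]
  rw [map_add, h0, add_zero]
  exact isNilpotent_toEnd_bracket_radical g ha

/-- The square zero representation of the centre. -/
lemma hasGoodRep_center : HasGoodRep (center K g).toSubmodule := by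
  let φ₀ : g →ₗ[K] Module.End K (K × g) :=
    { toFun := fun x => LinearMap.inr K K g ∘ₗ LinearMap.smulRight (LinearMap.fst K K g) x
      map_add' := fun x y => LinearMap.ext fun p => by ext <;> simp
      map_smul' := fun t x => LinearMap.ext fun p => by ext <;> simp [smul_comm t] }
  have hmul : ∀ x y, φ₀ x * φ₀ y = 0 := fun x y =>
    LinearMap.ext fun p => by simp [φ₀, Module.End.mul_apply]
  let c := (finBasis K (K × g)).equivFun.conjAlgEquiv K
  refine ⟨_, c.toLinearMap ∘ₗ φ₀, fun x hx y hy => ?_, fun z _ h => ?_, fun y _ _ => ?_⟩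
  · show c (φ₀ ⁅x, y⁆) = ⁅c (φ₀ x), c (φ₀ y)⁆
    rw [hy x, map_zero, map_zero, LieRing.of_associative_ring_bracket, ← map_mul c, ← map_mul c,
      hmul, hmul, sub_self]
  · have h1 : φ₀ z = 0 := c.injective (by simpa using h)
    simpa [φ₀] using congrArg Prod.snd (LinearMap.congr_fun h1 ((1 : K), (0 : g)))
  · exact ⟨2, by rw [pow_two]; show c (φ₀ y) * c (φ₀ y) = 0; rw [← map_mul, hmul, map_zero]⟩

/-- One element is adjoined at a time. -/
lemma hasGoodRep_step [CharZero K] {A B n : Submodule K g} (hzA : (center K g).toSubmodule ≤ A)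
    (hAn : A ≤ n) (hnB : n ≤ B)
    (hBB : ∀ x ∈ B, ∀ y ∈ B, ⁅x, y⁆ ∈ A ∧ ⁅x, y⁆ ∈ nilIdeal K g)
    (hor : B ≤ (nilIdeal K g).toSubmodule ∨ (nilIdeal K g).toSubmodule ≤ A)
    {x : g} (hxB : x ∈ B) (hxn : x ∉ n) (hn : HasGoodRep n) :
    HasGoodRep (n ⊔ K ∙ x) := by
  obtain ⟨d, φ, hφ, hker, hnil⟩ := hn
  let ns : LieSubalgebra K g :=
    { n with lie_mem' := fun {a b} ha hb => hAn (hBB a (hnB ha) b (hnB hb)).1 }
  have hdisj : Disjoint n (K ∙ x) := by
    rw [Submodule.disjoint_def]
    intro w hw hwx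
    obtain ⟨t, rfl⟩ := Submodule.mem_span_singleton.1 hwx
    rcases eq_or_ne t 0 with rfl | ht
    · simp
    · exact absurd ((n.smul_mem_iff ht).1 hw) hxn
  set N := n ⊓ (nilIdeal K g).toSubmodule
  have hspan : K ∙ x ≤ B := (Submodule.span_singleton_le_iff_mem _ _).2 hxB
  obtain ⟨d', ψ, hψ, hψker, hψnil⟩ := exists_extension ns (K ∙ x) N hdisj
    (fun a ha b hb => by
      obtain ⟨s, rfl⟩ := Submodule.mem_span_singleton.1 ha
      obtain ⟨t, rfl⟩ := Submodule.mem_span_singleton.1 hb
      simp)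
    inf_le_left
    (fun a ha y hy => ⟨hAn (hBB a (hspan ha) y (hnB hy)).1, (hBB a (hspan ha) y (hnB hy)).2⟩)
    (fun a ha y hy => ⟨hAn (hBB a (hnB ha) y (hnB hy.1)).1, (nilIdeal K g).lie_mem hy.2⟩)
    φ hφ fun y hy => hnil y hy.1 hy.2
  refine ⟨d', ψ, hψ, fun z hz h => ?_, fun w hw hwM => ?_⟩
  · exact hker z hz (hψker z (hAn (hzA hz)) h)
  · obtain ⟨y, hy, a, ha, rfl⟩ := Submodule.mem_sup.1 hw
    rcases hor with hB | hA
    · refine hψnil y ⟨hy, hB (hnB hy)⟩ a ha fun z _ => ?_
      obtain ⟨m, hm⟩ := isNilpotent_ad (K := K) (hB (hspan ha))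
      exact ⟨m, by rw [hm, LinearMap.zero_apply]⟩
    · have hyn : y + a ∈ n := hAn (hA hwM)
      have ha0 : a = 0 := Submodule.disjoint_def.1 hdisj a
        (by simpa using n.sub_mem hyn hy) ha
      subst ha0
      rw [add_zero] at hwM
      exact hψnil y ⟨hy, hwM⟩ 0 (zero_mem _) fun z _ => ⟨1, by simp⟩

/-- From `A` to `B` when brackets of `B` fall into `A`. -/
lemma hasGoodRep_grow [CharZero K] {A B : Submodule K g} (hzA : (center K g).toSubmodule ≤ A)
    (hAB : A ≤ B) (hBB : ∀ x ∈ B, ∀ y ∈ B, ⁅x, y⁆ ∈ A ∧ ⁅x, y⁆ ∈ nilIdeal K g)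
    (hor : B ≤ (nilIdeal K g).toSubmodule ∨ (nilIdeal K g).toSubmodule ≤ A)
    (hA : HasGoodRep A) : HasGoodRep B := by
  suffices h : ∀ (j : ℕ) (n : Submodule K g), A ≤ n → n ≤ B → finrank K B ≤ finrank K n + j →
      HasGoodRep n → HasGoodRep B from h (finrank K B) A le_rfl hAB (Nat.le_add_left _ _) hA
  intro j
  induction j with
  | zero =>
    intro n _ hnB hfin hn
    rwa [← Submodule.eq_of_le_of_finrank_le hnB hfin]
  | succ j ih =>
    intro n hAn hnB hfin hn
    rcases eq_or_lt_of_le hnB with rfl | hlt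
    · exact hn
    obtain ⟨x, hxB, hxn⟩ := SetLike.exists_of_lt hlt
    refine ih (n ⊔ K ∙ x) (hAn.trans le_sup_left)
      (sup_le hnB ((Submodule.span_singleton_le_iff_mem _ _).2 hxB)) ?_
      (hasGoodRep_step hzA hAn hnB hBB hor hxB hxn hn)
    have : n < n ⊔ K ∙ x := lt_of_le_of_ne le_sup_left fun e =>
      hxn (e.symm ▸ Submodule.mem_sup_right (Submodule.mem_span_singleton_self x))
    have := Submodule.finrank_lt_finrank_of_lt this
    omega

/-- The central series of the nilpotent ideal, padded by the centre. -/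
def chain (K g : Type*) [Field K] [LieRing g] [LieAlgebra K g] : ℕ → LieIdeal K g
  | 0 => nilIdeal K g
  | k + 1 => center K g ⊔ ⁅nilIdeal K g, chain K g k⁆

lemma hasGoodRep_nilIdeal [CharZero K] : HasGoodRep (nilIdeal K g).toSubmodule := by
  have hz : ∀ k, center K g ≤ chain K g k := fun k => by
    cases k
    exacts [center_le_nilIdeal, le_sup_left]
  have hle : ∀ k, chain K g k ≤ nilIdeal K g := fun k => by
    cases k
    exacts [le_rfl, sup_le center_le_nilIdeal (LieSubmodule.lie_le_left _ _)]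
  have hanti : ∀ k, chain K g (k + 1) ≤ chain K g k := fun k =>
    sup_le (hz k) (LieSubmodule.lie_le_right _ _)
  have hlcs : ∀ k, chain K g k ≤ center K g ⊔ (nilIdeal K g).lcs g k := by
    intro k
    induction k with
    | zero => simp
    | succ k ih =>
      refine sup_le le_sup_left ((LieSubmodule.mono_lie le_rfl ih).trans ?_)
      rw [LieSubmodule.lie_sup, LieIdeal.lcs_succ]
      exact sup_le_sup_right (LieSubmodule.lie_le_right _ _) _
  obtain ⟨k, hk⟩ : ∃ k, chain K g k = center K g := by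
    have hnil : LieModule.IsNilpotent (nilIdeal K g) g :=
      (LieModule.isNilpotent_iff_forall' (R := K)).2 fun y => isNilpotent_ad y.2
    obtain ⟨k, hk⟩ := (LieModule.isNilpotent_iff K (nilIdeal K g) g).1 hnil
    have hk' : (nilIdeal K g).lcs g k = ⊥ := by
      rw [← LieSubmodule.toSubmodule_eq_bot, LieIdeal.coe_lcs_eq, hk, LieSubmodule.bot_toSubmodule]
    exact ⟨k, le_antisymm ((hlcs k).trans (by rw [hk', sup_bot_eq])) (hz k)⟩
  suffices h : ∀ j ≤ k, HasGoodRep (chain K g (k - j)).toSubmodule by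
    simpa [chain] using h k le_rfl
  intro j
  induction j with
  | zero =>
    intro _
    rw [Nat.sub_zero, hk]
    exact hasGoodRep_center
  | succ j ih =>
    intro hj
    have e : k - j = k - (j + 1) + 1 := by omega
    have h := ih (by omega)
    rw [e] at h
    refine hasGoodRep_grow (hz _) (hanti _) (fun x hx y hy => ?_) (Or.inl (hle _)) h
    have hmem : ⁅x, y⁆ ∈ chain K g (k - (j + 1) + 1) :=
      LieSubmodule.mem_sup _ _ _ |>.2 ⟨0, zero_mem _, ⁅x, y⁆,
        LieSubmodule.lie_mem_lie (hle _ hx) hy, zero_add _⟩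
    exact ⟨hmem, hle _ hmem⟩

/-- A representation of the whole algebra faithful on the centre and nilpotent on the ideal. -/
lemma hasGoodRep_top [CharZero K] : HasGoodRep (⊤ : Submodule K g) := by
  have hr : HasGoodRep (radical K g).toSubmodule :=
    hasGoodRep_grow (A := (nilIdeal K g).toSubmodule) center_le_nilIdeal nilIdeal_le_radical
      (fun x _ y hy => ⟨bracket_mem_nilIdeal x hy, bracket_mem_nilIdeal x hy⟩) (Or.inr le_rfl)
      hasGoodRep_nilIdeal
  obtain ⟨d, φ, hφ, hker, hnil⟩ := hr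
  obtain ⟨T, hT, -⟩ := WeylReducibility.exists_levi_subalgebra (K := K) (G := g)
  let rs : LieSubalgebra K g :=
    { (radical K g).toSubmodule with lie_mem' := fun {a b} _ hb => (radical K g).lie_mem hb }
  obtain ⟨d', ψ, hψ, hψker, hψnil⟩ := exists_extension rs T.toSubmodule (nilIdeal K g).toSubmodule
    hT.symm.disjoint (fun a ha b hb => T.lie_mem ha hb) nilIdeal_le_radical
    (fun a _ y hy => bracket_mem_nilIdeal a hy) (fun x _ y hy => (nilIdeal K g).lie_mem hy)
    φ hφ (fun y hy => hnil y (nilIdeal_le_radical hy) hy)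
  refine ⟨d', ψ, fun x _ y _ => hψ x ?_ y ?_, fun z hz h => ?_, fun y _ hy => ?_⟩
  · exact hT.symm.sup_eq_top.ge trivial
  · exact hT.symm.sup_eq_top.ge trivial
  · exact hker z hz (hψker z (center_le_radical K g hz) h)
  · simpa using hψnil y hy 0 (zero_mem _) fun z _ => ⟨1, by simp⟩

/-- Ado's theorem, with nilpotent action of the ideal. -/
theorem exists_faithful_nilpotent [CharZero K] :
    ∃ (n : ℕ) (f : g →ₗ⁅K⁆ Matrix (Fin n) (Fin n) K), Function.Injective f ∧
      ∀ y ∈ nilIdeal K g, IsNilpotent (f y) := by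
  obtain ⟨d, φ, hφ, hker, hnil⟩ := hasGoodRep_top (K := K) (g := g)
  let φh : g →ₗ⁅K⁆ Module.End K (Fin d → K) :=
    { φ with map_lie' := fun {x y} => hφ x trivial y trivial }
  let ρ : g →ₗ[K] Module.End K ((Fin d → K) × g) :=
    { toFun := fun x => LinearMap.prodMap (φh x) (LieAlgebra.ad K g x)
      map_add' := fun x y => by rw [map_add, map_add]; exact LinearMap.ext fun p => rfl
      map_smul' := fun t x => by rw [map_smul, map_smul]; exact LinearMap.ext fun p => rfl }
  let b := finBasis K ((Fin d → K) × g)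
  let c := LinearMap.toMatrixAlgEquiv b
  refine ⟨_, { c.toLinearMap ∘ₗ ρ with map_lie' := fun {x y} => ?_ }, fun x y h => ?_, fun y hy => ?_⟩
  · show c (ρ ⁅x, y⁆) = ⁅c (ρ x), c (ρ y)⁆
    rw [LieRing.of_associative_ring_bracket, ← map_mul c, ← map_mul c, ← map_sub c]
    congr 1
    refine LinearMap.ext fun p => Prod.ext ?_ ?_
    · exact LinearMap.congr_fun (LieHom.map_lie φh x y) p.1
    · exact LinearMap.congr_fun (LieHom.map_lie (LieAlgebra.ad K g) x y) p.2
  · have h' : ρ x = ρ y := c.injective h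
    rw [← sub_eq_zero, ← map_sub] at h'
    have h2 : ∀ w : g, ⁅x - y, w⁆ = 0 := fun w => congrArg Prod.snd (LinearMap.congr_fun h' (0, w))
    have h1 : φ (x - y) = 0 := LinearMap.ext fun v =>
      congrArg Prod.fst (LinearMap.congr_fun h' (v, 0))
    exact sub_eq_zero.1 (hker _ (fun w => by rw [← lie_skew, h2, neg_zero]) h1)
  · obtain ⟨p, hp⟩ := hnil y trivial hy
    obtain ⟨q, hq⟩ := isNilpotent_ad (K := K) hy
    show IsNilpotent (c (ρ y))
    refine IsNilpotent.map ⟨p + q, ?_⟩ c
    have hpow : ∀ j, ρ y ^ j = LinearMap.prodMap (φ y ^ j) (LieAlgebra.ad K g y ^ j) := fun j => by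
      induction j with
      | zero => exact LinearMap.ext fun v => rfl
      | succ j ih => rw [pow_succ, ih, pow_succ, pow_succ]; exact LinearMap.ext fun v => rfl
    rw [hpow, pow_add, hp, zero_mul, pow_add, hq, mul_zero]
    exact LinearMap.ext fun v => rfl

end FA.Ado
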