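import Mathlib

/-!
# The bracket of a Lie algebra with its radical acts nilpotently

In characteristic zero, on an irreducible module the derived radical acts by zero, because the
elements in question have vanishing traces of powers; hence on every finite dimensional module the
elements of `⁅L, radical L⁆` act nilpotently.
-/

set_option autoImplicit false

noncomputable section

namespace FA.Ado

open Module LieAlgebra LieModule

attribute [local instance 100] LieRing.ofAssociativeRing

universe v

/-- An endomorphism all whose powers have vanishing trace is nilpotent in characteristic zero. -/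
lemma isNilpotent_of_trace_pow {K V : Type*} [Field K] [CharZero K] [AddCommGroup V] [Module K V]
    [FiniteDimensional K V] {f : Module.End K V}
    (h : ∀ k : ℕ, LinearMap.trace K V (f ^ (k + 1)) = 0) : IsNilpotent f := by
  classical
  have hp : (Polynomial.X * minpoly K f : Polynomial K) ≠ 0 :=
    mul_ne_zero Polynomial.X_ne_zero (minpoly.ne_zero (Algebra.IsIntegral.isIntegral f))
  obtain ⟨q, hq, hq0⟩ := Polynomial.exists_eq_pow_rootMultiplicity_mul_and_not_dvd _ hp 0
  simp only [map_zero, sub_zero] at hq hq0
  set m := (Polynomial.X * minpoly K f).rootMultiplicity 0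
  obtain ⟨m', hm⟩ : ∃ m', m = m' + 1 := by
    rcases m with _ | m'
    · rw [pow_zero, one_mul] at hq
      exact absurd ⟨_, hq.symm⟩ hq0
    · exact ⟨m', rfl⟩
  have hcop : IsCoprime (Polynomial.X ^ m : Polynomial K) q :=
    (Polynomial.irreducible_X.coprime_iff_not_dvd.2 hq0).pow_left
  obtain ⟨u, w, huw⟩ := hcop
  have hzero : f ^ m * Polynomial.aeval f q = 0 := by
    have := congrArg (Polynomial.aeval f) hq
    simpa using this.symm
  set e := Polynomial.aeval f (u * Polynomial.X ^ m)
  have htr : ∀ g : Polynomial K, LinearMap.trace K V (Polynomial.aeval f (g * Polynomial.X)) = 0 := by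
    intro g
    induction g using Polynomial.induction_on' with
    | add p q hp hq => rw [add_mul, map_add, map_add, hp, hq, add_zero]
    | monomial k r =>
      rw [map_mul, Polynomial.aeval_monomial, Polynomial.aeval_X, mul_assoc, ← pow_succ,
        ← Algebra.smul_def, map_smul, h, smul_zero]
  have he0 : LinearMap.trace K V e = 0 := by
    have : u * Polynomial.X ^ m = u * Polynomial.X ^ m' * Polynomial.X := by
      rw [hm, pow_succ, mul_assoc]
    simp only [e, this]
    exact htr _
  have hone : e + Polynomial.aeval f w * Polynomial.aeval f q = 1 := by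
    simp only [e, ← map_mul, ← map_add, huw, map_one]
  have he : IsIdempotentElem e := by
    have h' : e * (Polynomial.aeval f w * Polynomial.aeval f q) = 0 := by
      simp only [e, ← map_mul]
      rw [show u * Polynomial.X ^ m * (w * q) = u * w * (Polynomial.X ^ m * q) by ring, map_mul,
        map_mul _ (Polynomial.X ^ m), map_pow, Polynomial.aeval_X, hzero, mul_zero]
    calc e * e = e * e + e * (Polynomial.aeval f w * Polynomial.aeval f q) := by rw [h', add_zero]
      _ = e := by rw [← mul_add, hone, mul_one]
  rw [(LinearMap.IsIdempotentElem.isProj_range e he).trace, Nat.cast_eq_zero,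
    Submodule.finrank_eq_zero, LinearMap.range_eq_bot] at he0
  rw [he0, zero_add] at hone
  refine ⟨m, ?_⟩
  calc f ^ m = f ^ m * (Polynomial.aeval f w * Polynomial.aeval f q) := by rw [hone, mul_one]
    _ = Polynomial.aeval f (Polynomial.X ^ m * (w * q)) := by simp
    _ = Polynomial.aeval f w * (f ^ m * Polynomial.aeval f q) := by
      rw [mul_left_comm, map_mul, map_mul, map_pow, Polynomial.aeval_X]
    _ = 0 := by rw [hzero, mul_zero]

variable {K L : Type*} [Field K] [CharZero K] [LieRing L] [LieAlgebra K L] [FiniteDimensional K L]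

section Irreducible

variable {M : Type*} [AddCommGroup M] [Module K M] [LieRingModule L M] [LieModule K L M]
  [FiniteDimensional K M] [LieModule.IsIrreducible K L M]

omit [CharZero K] [FiniteDimensional K L] in
/-- An ideal acting by nilpotent operators on an irreducible module acts by zero. -/
lemma eq_zero_of_nilpotent_ideal (A : LieIdeal K L)
    (hA : ∀ a ∈ A, _root_.IsNilpotent (toEnd K L M a)) : ∀ a ∈ A, toEnd K L M a = 0 := by
  have hnil : LieModule.IsNilpotent A M :=
    (isNilpotent_iff_forall' (R := K)).2 fun a => hA (a : L) a.2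
  have := LieModule.nontrivial_of_isIrreducible K L M
  let N : LieSubmodule K L M :=
    { toSubmodule := (maxTrivSubmodule K A M).toSubmodule
      lie_mem := fun {y m} hm r => by
        have h2 : ⁅(r : L), y⁆ ∈ A := lie_mem_left K L A _ y r.2
        show ⁅(r : L), ⁅y, m⁆⁆ = 0
        rw [leibniz_lie, show ⁅(r : L), m⁆ = 0 from hm r, lie_zero, add_zero]
        exact hm ⟨_, h2⟩ }
  have : Nontrivial N := nontrivial_max_triv_of_isNilpotent K A M
  have htop : N = ⊤ := N.eq_top_of_isIrreducible K L M
  intro a ha
  ext m
  exact (htop ▸ trivial : m ∈ N) ⟨a, ha⟩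

omit [FiniteDimensional K L] in
/-- If an ideal acts by commuting operators, its brackets with everything act by zero. -/
lemma eq_zero_of_commutative (A : LieIdeal K L)
    (hA : ∀ a ∈ A, ∀ b ∈ A, Commute (toEnd K L M a) (toEnd K L M b)) :
    ∀ x : L, ∀ b ∈ A, toEnd K L M ⁅x, b⁆ = 0 := by
  intro x b hb
  refine eq_zero_of_nilpotent_ideal ⁅(⊤ : LieIdeal K L), A⁆ (fun a ha => ?_) _
    (LieSubmodule.lie_mem_lie trivial hb)
  have hle : ⁅(⊤ : LieIdeal K L), A⁆ ≤ A := LieSubmodule.lie_le_right A ⊤
  rw [← LieSubmodule.mem_toSubmodule, LieSubmodule.lieIdeal_oper_eq_linear_span'] at ha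
  have hspan : Submodule.span K {z : L | ∃ y ∈ (⊤ : LieIdeal K L), ∃ c ∈ A, ⁅y, c⁆ = z} ≤
      A.toSubmodule := Submodule.span_le.2 fun z ⟨y, _, c, hc, e⟩ => e ▸ A.lie_mem hc
  induction ha using Submodule.span_induction with
  | mem z hz =>
    obtain ⟨y, -, c, hc, rfl⟩ := hz
    refine isNilpotent_of_trace_pow fun k => ?_
    set C := toEnd K L M ⁅y, c⁆ with hC
    have hcc : Commute (C ^ k) (toEnd K L M c) :=
      ((hA _ (A.lie_mem hc) c hc)).pow_left k
    have hC' : C = toEnd K L M y * toEnd K L M c - toEnd K L M c * toEnd K L M y := by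
      rw [hC, LieHom.map_lie, LieRing.of_associative_ring_bracket]
    rw [pow_succ']
    nth_rewrite 1 [hC']
    rw [sub_mul, map_sub, mul_assoc, mul_assoc, ← hcc.eq,
      LinearMap.trace_mul_comm K (toEnd K L M c), mul_assoc, sub_self]
  | zero => simp
  | add u v hu hv hu' hv' =>
    rw [map_add]
    exact (hA u (hspan hu) v (hspan hv)).isNilpotent_add hu' hv'
  | smul t u _ hu' =>
    rw [map_smul]
    exact hu'.smul t

omit [FiniteDimensional K L] in
/-- An element in the span of brackets commuting with the action acts by zero. -/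
lemma eq_zero_of_central {c : L} (hc : c ∈ derivedSeries K L 1)
    (hcomm : ∀ x : L, Commute (toEnd K L M c) (toEnd K L M x)) : toEnd K L M c = 0 := by
  have hnil : _root_.IsNilpotent (toEnd K L M c) := by
    refine isNilpotent_of_trace_pow fun k => ?_
    set C := toEnd K L M c
    suffices h : ∀ z ∈ derivedSeries K L 1,
        LinearMap.trace K M (toEnd K L M z * C ^ k) = 0 by
      rw [pow_succ']
      exact h c hc
    intro z hz
    rw [derivedSeries_def, derivedSeriesOfIdeal_succ, derivedSeriesOfIdeal_zero, ← LieSubmodule.mem_toSubmodule,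
      LieSubmodule.lieIdeal_oper_eq_linear_span'] at hz
    induction hz using Submodule.span_induction with
    | mem z hz =>
      obtain ⟨x, -, y, -, rfl⟩ := hz
      rw [LieHom.map_lie, LieRing.of_associative_ring_bracket, sub_mul, map_sub, mul_assoc,
        mul_assoc, ← ((hcomm y).pow_left k).eq,
        LinearMap.trace_mul_comm K (toEnd K L M y), mul_assoc, sub_self]
    | zero => simp
    | add u v _ _ hu hv => rw [map_add, add_mul, map_add, hu, hv, add_zero]
    | smul t u _ hu => rw [map_smul, smul_mul_assoc, map_smul, hu, smul_zero]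
  let N : LieSubmodule K L M :=
    { toSubmodule := LinearMap.ker (toEnd K L M c)
      lie_mem := fun {x m} hm => by
        change toEnd K L M c (toEnd K L M x m) = 0
        rw [← Module.End.mul_apply, (hcomm x).eq, Module.End.mul_apply, LinearMap.mem_ker.1 hm,
          map_zero] }
  rcases IsSimpleOrder.eq_bot_or_eq_top N with h | h
  · have := LieModule.nontrivial_of_isIrreducible K L M
    have hinj : Function.Injective (toEnd K L M c) :=
      LinearMap.ker_eq_bot.1 ((LieSubmodule.toSubmodule_eq_bot N).2 h)
    obtain ⟨j, hj⟩ := hnil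
    obtain ⟨m, hm⟩ := exists_ne (0 : M)
    refine absurd (hinj.iterate j ?_) hm
    rw [← Module.End.pow_apply, ← Module.End.pow_apply, hj]
    simp
  · ext m
    exact (h ▸ trivial : m ∈ N)

/-- On an irreducible module `⁅L, radical L⁆` acts by zero. -/
lemma bracket_radical_eq_zero (x : L) {b : L} (hb : b ∈ radical K L) :
    toEnd K L M ⁅x, b⁆ = 0 := by
  set r := radical K L
  have step : ∀ k, (∀ a ∈ derivedSeriesOfIdeal K L (k + 1) r, toEnd K L M a = 0) →
      ∀ y : L, ∀ a ∈ derivedSeriesOfIdeal K L k r, toEnd K L M ⁅y, a⁆ = 0 := fun k hk =>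
    eq_zero_of_commutative _ fun a ha a' ha' => by
      rw [commute_iff_lie_eq, ← LieHom.map_lie]
      refine hk _ ?_
      rw [derivedSeriesOfIdeal_succ]
      exact LieSubmodule.lie_mem_lie ha ha'
  obtain ⟨l, hl⟩ := IsSolvable.solvable K r
  rw [LieIdeal.derivedSeries_eq_bot_iff] at hl
  have down : ∀ j, ∀ a ∈ derivedSeriesOfIdeal K L (l - j + 1) r, toEnd K L M a = 0 := by
    intro j
    induction j with
    | zero =>
      intro a ha
      rw [derivedSeriesOfIdeal_le (le_refl r) (by omega : l ≤ l - 0 + 1) |>.trans_eq hl
        |> le_bot_iff.1, LieSubmodule.mem_bot] at ha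
      rw [ha, map_zero]
    | succ j ih =>
      by_cases h : l - (j + 1) + 1 = l - j + 1
      · rwa [h]
      intro a ha
      have hs : l - (j + 1) + 1 + 1 = l - j + 1 := by omega
      refine eq_zero_of_central ?_ fun y => ?_
      · refine SetLike.le_def.1 (derivedSeriesOfIdeal_le le_top ?_) ha
        omega
      · refine (commute_iff_lie_eq.2 ?_).symm
        rw [← LieHom.map_lie]
        exact step _ (hs ▸ ih) y a ha
  exact step 0 (by simpa using down l) x b (by rwa [derivedSeriesOfIdeal_zero])

end Irreducible

lemma radical_nilpotent_aux (n : ℕ) : ∀ (M : Type v) [AddCommGroup M] [Module K M]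
    [LieRingModule L M] [LieModule K L M] [FiniteDimensional K M], finrank K M ≤ n →
    ∀ a ∈ ⁅(⊤ : LieIdeal K L), radical K L⁆, _root_.IsNilpotent (toEnd K L M a) := by
  induction n using Nat.strong_induction_on with
  | _ n ih =>
    intro M _ _ _ _ _ hn a ha
    rcases subsingleton_or_nontrivial M with h | h
    · exact ⟨1, LinearMap.ext fun m => Subsingleton.elim _ _⟩
    by_cases hirr : ∀ N : LieSubmodule K L M, N ≠ ⊥ → N = ⊤
    · have : LieModule.IsIrreducible K L M := LieModule.IsIrreducible.mk hirr
      suffices h0 : toEnd K L M a = 0 from h0 ▸ IsNilpotent.zero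
      rw [← LieSubmodule.mem_toSubmodule, LieSubmodule.lieIdeal_oper_eq_linear_span'] at ha
      induction ha using Submodule.span_induction with
      | mem z hz =>
        obtain ⟨y, -, c, hc, rfl⟩ := hz
        exact bracket_radical_eq_zero y hc
      | zero => simp
      | add u v _ _ hu hv => rw [map_add, hu, hv, add_zero]
      | smul t u _ hu => rw [map_smul, hu, smul_zero]
    · push Not at hirr
      obtain ⟨N, hbot, htop⟩ := hirr
      let π := LieSubmodule.Quotient.mk' N
      have : FiniteDimensional K (M ⧸ N) :=
        inferInstanceAs (FiniteDimensional K (M ⧸ N.toSubmodule))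
      have h1 : finrank K N < finrank K M :=
        Submodule.finrank_lt fun e => htop ((LieSubmodule.toSubmodule_eq_top N).1 e)
      have h2 : finrank K (M ⧸ N) < finrank K M := by
        have := N.toSubmodule.finrank_quotient_add_finrank
        have : finrank K N.toSubmodule ≠ 0 := fun e =>
          hbot ((LieSubmodule.toSubmodule_eq_bot N).1 (Submodule.finrank_eq_zero.1 e))
        change finrank K (M ⧸ N.toSubmodule) < _
        omega
      obtain ⟨p, hp⟩ := ih _ (h1.trans_le hn) N le_rfl a ha
      obtain ⟨q, hq⟩ := ih _ (h2.trans_le hn) (M ⧸ N) le_rfl a ha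
      refine ⟨p + q, LinearMap.ext fun m => ?_⟩
      have hπ : ∀ j m, π ((toEnd K L M a ^ j) m) = (toEnd K L (M ⧸ N) a ^ j) (π m) := fun j => by
        induction j with
        | zero => simp
        | succ j ihj =>
          intro m
          rw [pow_succ', Module.End.mul_apply, pow_succ', Module.End.mul_apply, ← ihj]
          exact LieModuleHom.map_lie π a _
      have hN : ∀ j (x : N), (toEnd K L M a ^ j) (x : M) = ((toEnd K L N a ^ j) x : M) := fun j => by
        induction j with
        | zero => simp
        | succ j ihj =>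
          intro x
          rw [pow_succ', Module.End.mul_apply, pow_succ', Module.End.mul_apply, ihj]
          rfl
      have hmem : (toEnd K L M a ^ q) m ∈ N := by
        rw [← LieSubmodule.Quotient.mk_eq_zero]
        show π _ = 0
        rw [hπ, hq, LinearMap.zero_apply]
      rw [pow_add, Module.End.mul_apply, show (toEnd K L M a ^ q) m = ((⟨_, hmem⟩ : N) : M) from rfl,
        hN, hp]
      rfl

/-- The elements of `⁅L, radical L⁆` act nilpotently on every finite dimensional module. -/
theorem isNilpotent_toEnd_bracket_radical (M : Type*) [AddCommGroup M] [Module K M]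
    [LieRingModule L M] [LieModule K L M] [FiniteDimensional K M] {a : L}
    (ha : a ∈ ⁅(⊤ : LieIdeal K L), radical K L⁆) : _root_.IsNilpotent (toEnd K L M a) :=
  radical_nilpotent_aux _ M le_rfl a ha

end FA.Ado
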